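import Mathlib

/-!
# Cell A2, route G — the δ-count (helper913)

Mathlib-only.  This file provides the *counting* half of the "deck transformation" proof of the wall of
cell A2 (memos `origin/helper12:coord/A2-helper12.md` §3 (G), `origin/helper973:coord/A2-K3-graph-helper973.md`,
`origin/helper69:coord/A2-K3-counting-helper69.md` §2 (c)).

* `uni_of_count` (pure combinatorics): sheets `S` of colours `C` over the components of the base,
  points `Y` of the cover over the crossing points `X` of the base.  If every sheet passes through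
  exactly one point over each crossing point of its component, every point lies on at least one sheet
  of every colour through its image ("going down"), and the numbers of branches satisfy the
  `δ`-inequalities `#inc' ≤ d·δ + #Y`, `δ + #X ≤ #inc`, then a point of the cover carries **at most one
  sheet of each colour**.  This is exactly the hypothesis `h_uni` of `Fermat.Agent.A2.H12.fixes_all`.
* `card_inc_le_finrank_add_card` (CRT): for a `k`-algebra `Λ`, ideals `𝔮 u` and finitely many distinct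
  `k`-points, `#{(u, y) : y lies on 𝔮 u} ≤ dim_k ((∏ Λ/𝔮 u) / Λ) + #points`  ("`δ ≥ branches − 1`").
-/

set_option autoImplicit false

namespace Fermat.Agent.A2.H913

section Combinatorics

variable {S Y X C : Type*} [Finite S] [Finite Y] [Finite X] [Finite C]

omit [Finite Y] in
/-- The number of incidences of the cover is `d` times the number of incidences of the base, when
every sheet passes through exactly one point over each point of its component. -/
theorem card_inc_eq_mul (col : S → C) (π : Y → X) (inc : S → Y → Prop) (incB : C → X → Prop)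
    (d : ℕ) (hd : ∀ c, Nat.card {s // col s = c} = d)
    (hcov : ∀ s y, inc s y → incB (col s) (π y))
    (h1 : ∀ s x, incB (col s) x → ∃! y, π y = x ∧ inc s y) :
    Nat.card {p : S × Y // inc p.1 p.2} = d * Nat.card {p : C × X // incB p.1 p.2} := by
  classical
  -- step 1 : incidences of the cover ↔ pairs (sheet, point of its component)
  let e1 : {p : S × Y // inc p.1 p.2} ≃ {p : S × X // incB (col p.1) p.2} :=
    { toFun := fun p => ⟨(p.1.1, π p.1.2), hcov _ _ p.2⟩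
      invFun := fun p => ⟨(p.1.1, (h1 p.1.1 p.1.2 p.2).choose), (h1 p.1.1 p.1.2 p.2).choose_spec.1.2⟩
      left_inv := by
        rintro ⟨⟨s, y⟩, h⟩
        apply Subtype.ext
        refine Prod.ext rfl ?_
        exact ((h1 s (π y) (hcov _ _ h)).choose_spec.2 y ⟨rfl, h⟩).symm
      right_inv := by
        rintro ⟨⟨s, x⟩, h⟩
        apply Subtype.ext
        refine Prod.ext rfl ?_
        exact (h1 s x h).choose_spec.1.1 }
  -- step 2 : fibre over the base incidence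
  let e2 : {p : S × X // incB (col p.1) p.2} ≃
      Σ q : {p : C × X // incB p.1 p.2}, {s // col s = q.1.1} :=
    { toFun := fun p => ⟨⟨(col p.1.1, p.1.2), p.2⟩, ⟨p.1.1, rfl⟩⟩
      invFun := fun r => ⟨(r.2.1, r.1.1.2), by
        have h := r.1.2
        have h2 := r.2.2
        simpa [h2] using h⟩
      left_inv := by
        rintro ⟨⟨s, x⟩, h⟩
        rfl
      right_inv := by
        rintro ⟨⟨⟨c, x⟩, h⟩, ⟨s, hs⟩⟩
        dsimp only at hs
        subst hs
        rfl }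
  have : Fintype {p : C × X // incB p.1 p.2} := Fintype.ofFinite _
  rw [Nat.card_congr (e1.trans e2), Nat.card_sigma]
  simp only [hd, Finset.sum_const, Finset.card_univ, smul_eq_mul, Nat.card_eq_fintype_card]
  ring

omit [Finite Y] in
/-- **The δ-count.**  At most one sheet of each colour passes through a point of the cover. -/
theorem uni_of_count (col : S → C) (π : Y → X) (inc : S → Y → Prop) (incB : C → X → Prop)
    (d δ : ℕ) (hd : ∀ c, Nat.card {s // col s = c} = d)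
    (hcov : ∀ s y, inc s y → incB (col s) (π y))
    (h1 : ∀ s x, incB (col s) x → ∃! y, π y = x ∧ inc s y)
    (h2 : ∀ y c, incB c (π y) → ∃ s, col s = c ∧ inc s y)
    (hX : ∀ x, ∃ c, incB c x)
    (hbase : δ + Nat.card X ≤ Nat.card {p : C × X // incB p.1 p.2})
    (hcount : Nat.card {p : S × Y // inc p.1 p.2} ≤ d * δ + Nat.card Y) :
    ∀ s t y, inc s y → inc t y → col s = col t → s = t := by
  classical
  have hA := card_inc_eq_mul col π inc incB d hd hcov h1
  -- `d * #X ≤ #Y`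
  have hB : d * Nat.card X ≤ Nat.card Y := by
    have h3 : d * (δ + Nat.card X) ≤ d * Nat.card {p : C × X // incB p.1 p.2} :=
      Nat.mul_le_mul_left d hbase
    rw [Nat.mul_add] at h3
    omega
  intro s t y hs ht hst
  -- a choice of one colour through every point of the base, equal to `col s` at `π y`
  choose c₀ hc₀ using hX
  let c : X → C := fun x => if x = π y then col s else c₀ x
  have hc : ∀ x, incB (c x) x := by
    intro x
    by_cases hx : x = π y
    · subst hx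
      simpa [c] using hcov s y hs
    · simpa [c, hx] using hc₀ x
  have hcy : c (π y) = col s := by simp [c]
  -- the sheets of the chosen colour, over each point of the base
  let T := {p : S × X // col p.1 = c p.2}
  have hT : Nat.card T = d * Nat.card X := by
    let e : T ≃ Σ x : X, {s // col s = c x} :=
      { toFun := fun p => ⟨p.1.2, ⟨p.1.1, p.2⟩⟩
        invFun := fun r => ⟨(r.2.1, r.1), r.2.2⟩
        left_inv := by rintro ⟨⟨s, x⟩, h⟩; rfl
        right_inv := by rintro ⟨x, ⟨s, h⟩⟩; rfl }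
    have : Fintype X := Fintype.ofFinite _
    rw [Nat.card_congr e, Nat.card_sigma]
    simp only [hd, Finset.sum_const, Finset.card_univ, smul_eq_mul, Nat.card_eq_fintype_card]
    ring
  have hTinc : ∀ p : T, incB (col p.1.1) p.1.2 := fun p => by rw [p.2]; exact hc _
  let φ : T → Y := fun p => (h1 p.1.1 p.1.2 (hTinc p)).choose
  have hφ : ∀ p : T, π (φ p) = p.1.2 ∧ inc p.1.1 (φ p) := fun p =>
    (h1 p.1.1 p.1.2 (hTinc p)).choose_spec.1
  have hφu : ∀ (p : T) (y' : Y), π y' = p.1.2 → inc p.1.1 y' → y' = φ p := fun p y' h h' =>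
    (h1 p.1.1 p.1.2 (hTinc p)).choose_spec.2 y' ⟨h, h'⟩
  have hsurj : Function.Surjective φ := by
    intro y'
    obtain ⟨s', hs', hinc'⟩ := h2 y' (c (π y')) (hc _)
    exact ⟨⟨(s', π y'), hs'⟩, (hφu ⟨(s', π y'), hs'⟩ y' rfl hinc').symm⟩
  have hbij : Function.Bijective φ := hsurj.bijective_of_nat_card_le (by rw [hT]; exact hB)
  have e1 : φ ⟨(s, π y), hcy.symm⟩ = y := (hφu ⟨(s, π y), hcy.symm⟩ y rfl hs).symm
  have e2 : φ ⟨(t, π y), by rw [← hst]; exact hcy.symm⟩ = y :=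
    (hφu ⟨(t, π y), by rw [← hst]; exact hcy.symm⟩ y rfl ht).symm
  have := hbij.1 (e1.trans e2.symm)
  exact congrArg (fun p : T => p.1.1) this

omit [Finite S] [Finite Y] [Finite X] [Finite C] in
/-- **Going down from transitivity.**  If a group permutes sheets and points compatibly, preserving
colours and the projection to the base, and acts transitively on the points over each point of the
base, then every point lies on a sheet of each colour passing through its image. -/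
theorem going_down_of_transitive {G : Type*} (actS : G → S → S) (actY : G → Y → Y)
    (col : S → C) (π : Y → X) (inc : S → Y → Prop) (incB : C → X → Prop)
    (hcol : ∀ g s, col (actS g s) = col s)
    (hinc : ∀ g s y, inc s y → inc (actS g s) (actY g y))
    (htrans : ∀ y y', π y = π y' → ∃ g, actY g y' = y)
    (hex : ∀ s x, incB (col s) x → ∃ y, π y = x ∧ inc s y)
    (hcolsurj : ∀ c, ∃ s, col s = c) :
    ∀ y c, incB c (π y) → ∃ s, col s = c ∧ inc s y := by
  intro y c h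
  obtain ⟨s, rfl⟩ := hcolsurj c
  obtain ⟨y', hy', hinc'⟩ := hex s (π y) h
  obtain ⟨g, rfl⟩ := htrans y y' hy'.symm
  exact ⟨actS g s, hcol g s, hinc g s y' hinc'⟩

end Combinatorics

section CRT

variable {k : Type*} [Field k] {Λ : Type*} [CommRing Λ] [Algebra k Λ]

/-- Two `k`-points with the same kernel are equal. -/
theorem algHom_eq_of_ker_le (χ χ' : Λ →ₐ[k] k) (h : RingHom.ker χ ≤ RingHom.ker χ') : χ = χ' := by
  ext a
  have h1 : a - algebraMap k Λ (χ a) ∈ RingHom.ker χ := by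
    rw [RingHom.mem_ker, map_sub, AlgHom.commutes]
    simp
  have h2 := h h1
  rw [RingHom.mem_ker, map_sub, AlgHom.commutes] at h2
  have h3 : χ' a = χ a := by simpa [sub_eq_zero] using h2
  exact h3.symm

/-- **Interpolation** at finitely many distinct `k`-points (Chinese remainder theorem). -/
theorem exists_eval_eq {κ : Type*} [Finite κ] (χ : κ → (Λ →ₐ[k] k)) (hχ : Function.Injective χ)
    (a : κ → k) : ∃ s : Λ, ∀ y, χ y s = a y := by
  classical
  have hmax : ∀ y, (RingHom.ker (χ y)).IsMaximal := fun y =>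
    RingHom.ker_isMaximal_of_surjective _ (fun c => ⟨algebraMap k Λ c, by simp⟩)
  have hcop : Pairwise (Function.onFun IsCoprime fun y => RingHom.ker (χ y)) := by
    intro y y' hyy'
    rw [Function.onFun, Ideal.isCoprime_iff_sup_eq]
    by_contra hne
    have h1 : RingHom.ker (χ y) ⊔ RingHom.ker (χ y') = RingHom.ker (χ y) :=
      ((hmax y).eq_of_le hne le_sup_left).symm
    have h2 : RingHom.ker (χ y') ≤ RingHom.ker (χ y) := by
      rw [← h1]; exact le_sup_right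
    exact hyy' (hχ (algHom_eq_of_ker_le _ _ h2)).symm
  obtain ⟨z, hz⟩ := Ideal.quotientInfToPiQuotient_surj hcop
    (fun y => Ideal.Quotient.mk _ (algebraMap k Λ (a y)))
  obtain ⟨s, rfl⟩ := Ideal.Quotient.mk_surjective z
  refine ⟨s, fun y => ?_⟩
  have h1 := congrFun hz y
  rw [Ideal.quotientInfToPiQuotient_mk', Ideal.Quotient.eq, RingHom.mem_ker, map_sub,
    AlgHom.commutes] at h1
  simpa [sub_eq_zero] using h1

variable {ι : Type*} (𝔮 : ι → Ideal Λ)

/-- The diagonal map `Λ → ∏ Λ/𝔮 u`. -/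
noncomputable def diagPi : Λ →ₗ[k] (∀ u, Λ ⧸ 𝔮 u) :=
  LinearMap.pi fun u => (Ideal.Quotient.mkₐ k (𝔮 u)).toLinearMap

@[simp] theorem diagPi_apply (a : Λ) (u : ι) : diagPi (k := k) 𝔮 a u = Ideal.Quotient.mk (𝔮 u) a := rfl

/-- The `δ`-module of a family of ideals: `(∏ Λ/𝔮 u) / Λ`. -/
abbrev DeltaMod (k : Type*) [Field k] {Λ : Type*} [CommRing Λ] [Algebra k Λ] {ι : Type*}
    (𝔮 : ι → Ideal Λ) : Type _ :=
  (∀ u, Λ ⧸ 𝔮 u) ⧸ LinearMap.range (diagPi (k := k) 𝔮)

/-- Evaluation of a tuple of functions on the sheets at all incidences (sheet, point). -/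
noncomputable def evInc {κ : Type*} (χ : κ → (Λ →ₐ[k] k)) :
    (∀ u, Λ ⧸ 𝔮 u) →ₗ[k] ({p : ι × κ // 𝔮 p.1 ≤ RingHom.ker (χ p.2)} → k) :=
  LinearMap.pi fun p =>
    (Ideal.Quotient.liftₐ (𝔮 p.1.1) (χ p.1.2) (fun _ ha => RingHom.mem_ker.1 (p.2 ha))).toLinearMap ∘ₗ
      LinearMap.proj p.1.1

theorem evInc_apply {κ : Type*} (χ : κ → (Λ →ₐ[k] k)) (f : ∀ u, Λ ⧸ 𝔮 u)
    (p : {p : ι × κ // 𝔮 p.1 ≤ RingHom.ker (χ p.2)}) :
    evInc 𝔮 χ f p =
      Ideal.Quotient.liftₐ (𝔮 p.1.1) (χ p.1.2) (fun _ ha => RingHom.mem_ker.1 (p.2 ha)) (f p.1.1) :=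
  rfl

theorem evInc_diagPi {κ : Type*} (χ : κ → (Λ →ₐ[k] k)) (a : Λ)
    (p : {p : ι × κ // 𝔮 p.1 ≤ RingHom.ker (χ p.2)}) :
    evInc 𝔮 χ (diagPi (k := k) 𝔮 a) p = χ p.1.2 a := by
  rw [evInc_apply, diagPi_apply]
  rfl

theorem evInc_surjective {κ : Type*} [Finite κ] (χ : κ → (Λ →ₐ[k] k))
    (hχ : Function.Injective χ) : Function.Surjective (evInc 𝔮 χ) := by
  classical
  intro b
  have key : ∀ u, ∃ s : Λ, ∀ y, χ y s = if h : 𝔮 u ≤ RingHom.ker (χ y) then b ⟨(u, y), h⟩ else 0 :=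
    fun u => exists_eval_eq χ hχ _
  choose s hs using key
  refine ⟨fun u => Ideal.Quotient.mk (𝔮 u) (s u), ?_⟩
  funext p
  obtain ⟨⟨u, y⟩, h⟩ := p
  rw [evInc_apply]
  change χ y (s u) = _
  rw [hs u y, dif_pos h]

/-- **Local bound `δ ≥ branches − 1`, summed over finitely many `k`-points.** -/
theorem card_inc_le_finrank_add_card {κ : Type*} [Finite ι] [Finite κ] (χ : κ → (Λ →ₐ[k] k))
    (hχ : Function.Injective χ) [Module.Finite k (DeltaMod k 𝔮)] :
    Nat.card {p : ι × κ // 𝔮 p.1 ≤ RingHom.ker (χ p.2)} ≤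
      Module.finrank k (DeltaMod k 𝔮) + Nat.card κ := by
  classical
  have : Fintype {p : ι × κ // 𝔮 p.1 ≤ RingHom.ker (χ p.2)} := Fintype.ofFinite _
  have : Fintype κ := Fintype.ofFinite _
  set Inc := {p : ι × κ // 𝔮 p.1 ≤ RingHom.ker (χ p.2)} with hInc
  let r : (κ → k) →ₗ[k] (Inc → k) := LinearMap.funLeft k k (fun p : Inc => p.1.2)
  let D : Submodule k (Inc → k) := LinearMap.range r
  have hle : LinearMap.range (diagPi (k := k) 𝔮) ≤ D.comap (evInc 𝔮 χ) := by
    rintro _ ⟨a, rfl⟩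
    refine ⟨fun y => χ y a, ?_⟩
    funext p
    rw [evInc_diagPi]
    rfl
  let g : DeltaMod k 𝔮 →ₗ[k] (Inc → k) ⧸ D := Submodule.mapQ _ D (evInc 𝔮 χ) hle
  have hg : Function.Surjective g := by
    intro z
    obtain ⟨b, rfl⟩ := Submodule.mkQ_surjective D z
    obtain ⟨f, rfl⟩ := evInc_surjective 𝔮 χ hχ b
    exact ⟨Submodule.mkQ _ f, rfl⟩
  have h1 : Module.finrank k ((Inc → k) ⧸ D) ≤ Module.finrank k (DeltaMod k 𝔮) :=
    LinearMap.finrank_le_finrank_of_surjective hg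
  have h2 : Module.finrank k ((Inc → k) ⧸ D) + Module.finrank k D = Module.finrank k (Inc → k) :=
    Submodule.finrank_quotient_add_finrank D
  have h3 : Module.finrank k D ≤ Module.finrank k (κ → k) := LinearMap.finrank_range_le r
  rw [Module.finrank_pi] at h2 h3
  rw [Nat.card_eq_fintype_card, Nat.card_eq_fintype_card]
  omega

end CRT

section Base

variable {k : Type*} [Field k] {Λ : Type*} [CommRing Λ] [Algebra k Λ]
variable {C : Type*} (𝔭 : C → Ideal Λ)

/-- The lift of a `k`-point to the quotient by an ideal contained in its kernel. -/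
noncomputable def ptLift (I : Ideal Λ) (χ : Λ →ₐ[k] k) (h : I ≤ RingHom.ker χ) : Λ ⧸ I →ₐ[k] k :=
  Ideal.Quotient.liftₐ I χ (fun _ ha => RingHom.mem_ker.1 (h ha))

@[simp] theorem ptLift_mk (I : Ideal Λ) (χ : Λ →ₐ[k] k) (h : I ≤ RingHom.ker χ) (a : Λ) :
    ptLift I χ h (Ideal.Quotient.mk I a) = χ a := rfl

/-- **Transversal crossings ⇒ `δ ≤ #crossings`** for a two-component base: if every function vanishing
at all the points of `X` lies in `𝔭 c₁ + 𝔭 c₂`, then `(Λ/𝔭 c₁ × Λ/𝔭 c₂)/Λ` embeds in `k^X`. -/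
theorem deltaMod_two_le (c₁ c₂ : C) (hC : ∀ c, c = c₁ ∨ c = c₂)
    {X : Type*} [Finite X] (χ : X → (Λ →ₐ[k] k))
    (hX : ∀ c x, 𝔭 c ≤ RingHom.ker (χ x))
    (hM5 : ∀ a : Λ, (∀ x, χ x a = 0) → a ∈ 𝔭 c₁ ⊔ 𝔭 c₂) :
    Module.Finite k (DeltaMod k 𝔭) ∧ Module.finrank k (DeltaMod k 𝔭) ≤ Nat.card X := by
  classical
  have : Fintype X := Fintype.ofFinite _
  let Θ : (∀ c, Λ ⧸ 𝔭 c) →ₗ[k] (X → k) :=
    LinearMap.pi fun x =>
      (ptLift (𝔭 c₁) (χ x) (hX c₁ x)).toLinearMap ∘ₗ LinearMap.proj c₁ -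
        (ptLift (𝔭 c₂) (χ x) (hX c₂ x)).toLinearMap ∘ₗ LinearMap.proj c₂
  have hΘ : ∀ f x, Θ f x = ptLift (𝔭 c₁) (χ x) (hX c₁ x) (f c₁) -
      ptLift (𝔭 c₂) (χ x) (hX c₂ x) (f c₂) := fun _ _ => rfl
  have hker : LinearMap.range (diagPi (k := k) 𝔭) ≤ LinearMap.ker Θ := by
    rintro _ ⟨a, rfl⟩
    rw [LinearMap.mem_ker]
    funext x
    rw [hΘ, diagPi_apply, diagPi_apply, ptLift_mk, ptLift_mk, sub_self]
    rfl
  let Θ' : DeltaMod k 𝔭 →ₗ[k] (X → k) := Submodule.liftQ _ Θ hker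
  have hinj : Function.Injective Θ' := by
    rw [← LinearMap.ker_eq_bot, Submodule.ker_liftQ_eq_bot']
    refine le_antisymm hker ?_
    intro f hf
    rw [LinearMap.mem_ker] at hf
    obtain ⟨a, ha⟩ := Ideal.Quotient.mk_surjective (f c₁)
    obtain ⟨b, hb⟩ := Ideal.Quotient.mk_surjective (f c₂)
    have hab : a - b ∈ 𝔭 c₁ ⊔ 𝔭 c₂ := by
      apply hM5
      intro x
      have h1 := congrFun hf x
      rw [hΘ, ← ha, ← hb, ptLift_mk, ptLift_mk] at h1
      rw [map_sub]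
      exact h1
    obtain ⟨i, hi, j, hj, hij⟩ := Submodule.mem_sup.1 hab
    refine ⟨a - i, ?_⟩
    funext c
    rw [diagPi_apply]
    rcases hC c with rfl | rfl
    · rw [← ha, Ideal.Quotient.eq]
      have : a - i - a = -i := by ring
      rw [this]
      exact (𝔭 _).neg_mem hi
    · rw [← hb, Ideal.Quotient.eq]
      have : a - i - b = j := by
        have h2 : a - i - b = (a - b) - i := by ring
        rw [h2, ← hij]; ring
      rw [this]
      exact hj
  have hfin : Module.Finite k (DeltaMod k 𝔭) := Module.Finite.of_injective Θ' hinj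
  refine ⟨hfin, ?_⟩
  have h := LinearMap.finrank_le_finrank_of_injective hinj
  rw [Module.finrank_pi, ← Nat.card_eq_fintype_card] at h
  exact h

end Base

section Assembly

variable {k : Type*} [Field k] {Λ Λ' : Type*} [CommRing Λ] [CommRing Λ'] [Algebra k Λ]
  [Algebra k Λ']

/-- A sheet mapping isomorphically onto its component carries exactly one point over each point of
the component. -/
theorem existsUnique_pt_of_sheet (φ : Λ →ₐ[k] Λ') (P : Ideal Λ) (Q : Ideal Λ')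
    (hle : P ≤ Q.comap φ) (hinj : ∀ a, φ a ∈ Q → a ∈ P) (hsurj : ∀ b : Λ', ∃ a : Λ, b - φ a ∈ Q)
    (χ : Λ →ₐ[k] k) (hχ : P ≤ RingHom.ker χ) :
    ∃! y : Λ' →ₐ[k] k, y.comp φ = χ ∧ Q ≤ RingHom.ker y := by
  have hbij : Function.Bijective (Ideal.quotientMapₐ Q φ hle) := by
    constructor
    · rw [injective_iff_map_eq_zero]
      intro z hz
      obtain ⟨a, rfl⟩ := Ideal.Quotient.mk_surjective z
      have h1 : Ideal.quotientMapₐ Q φ hle (Ideal.Quotient.mk P a) = Ideal.Quotient.mk Q (φ a) := rfl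
      rw [h1, Ideal.Quotient.eq_zero_iff_mem] at hz
      exact Ideal.Quotient.eq_zero_iff_mem.2 (hinj a hz)
    · intro z
      obtain ⟨b, rfl⟩ := Ideal.Quotient.mk_surjective z
      obtain ⟨a, ha⟩ := hsurj b
      refine ⟨Ideal.Quotient.mk P a, ?_⟩
      have h1 : Ideal.quotientMapₐ Q φ hle (Ideal.Quotient.mk P a) = Ideal.Quotient.mk Q (φ a) := rfl
      rw [h1]
      exact (Ideal.Quotient.eq.2 ha).symm
  let e : (Λ ⧸ P) ≃ₐ[k] (Λ' ⧸ Q) := AlgEquiv.ofBijective _ hbij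
  have he : ∀ a, e (Ideal.Quotient.mk P a) = Ideal.Quotient.mk Q (φ a) := fun _ => rfl
  let y₀ : Λ' →ₐ[k] k := (ptLift P χ hχ).comp ((e.symm : (Λ' ⧸ Q) →ₐ[k] (Λ ⧸ P)).comp
    (Ideal.Quotient.mkₐ k Q))
  have hy₀ : ∀ b, y₀ b = ptLift P χ hχ (e.symm (Ideal.Quotient.mk Q b)) := fun _ => rfl
  have hy₀φ : ∀ a, y₀ (φ a) = χ a := by
    intro a
    rw [hy₀, ← he, AlgEquiv.symm_apply_apply, ptLift_mk]
  have hy₀Q : Q ≤ RingHom.ker y₀ := by
    intro b hb
    rw [RingHom.mem_ker, hy₀, Ideal.Quotient.eq_zero_iff_mem.2 hb, map_zero, map_zero]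
  refine ⟨y₀, ⟨AlgHom.ext hy₀φ, hy₀Q⟩, ?_⟩
  rintro y ⟨hy1, hy2⟩
  ext b
  obtain ⟨a, ha⟩ := hsurj b
  have h1 : y (b - φ a) = 0 := RingHom.mem_ker.1 (hy2 ha)
  have h2 : y₀ (b - φ a) = 0 := RingHom.mem_ker.1 (hy₀Q ha)
  rw [map_sub, sub_eq_zero] at h1 h2
  rw [h1, h2, hy₀φ, ← hy1]
  rfl

variable {C Sh X : Type*} [Finite C] [Finite Sh] [Finite X]

/-- **COUNT, ring form.**  `Λ → Λ'` the special fibres of base and cover (one affine chart, over the
residue field `k`), `𝔭 c` the components of the base, `𝔮 s` the sheets of the cover, `col s` the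
component below the sheet `s`, each sheet mapping isomorphically onto its component, `d` sheets over
each component, `X` the crossing points of the base.  If going-down holds at the points over `X`, and
`δ(cover) ≤ d·δ`, `δ + #X ≤ #{(c, x) : x ∈ c}` (nodal base), then through a point of the cover over
`X` there passes at most one sheet of each colour. -/
theorem uni_of_delta (φ : Λ →ₐ[k] Λ') (𝔭 : C → Ideal Λ) (𝔮 : Sh → Ideal Λ') (col : Sh → C)
    (d δ : ℕ) (hd : ∀ c, Nat.card {s // col s = c} = d)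
    (hle : ∀ s, 𝔭 (col s) ≤ (𝔮 s).comap φ)
    (hinj : ∀ s a, φ a ∈ 𝔮 s → a ∈ 𝔭 (col s))
    (hsurj : ∀ s (b : Λ'), ∃ a : Λ, b - φ a ∈ 𝔮 s)
    (χ : X → (Λ →ₐ[k] k)) (hχ : Function.Injective χ)
    (hX : ∀ x, ∃ c, 𝔭 c ≤ RingHom.ker (χ x))
    (hgd : ∀ (y : Λ' →ₐ[k] k) (x : X), y.comp φ = χ x → ∀ c, 𝔭 c ≤ RingHom.ker (χ x) →
      ∃ s, col s = c ∧ 𝔮 s ≤ RingHom.ker y)
    [Module.Finite k (DeltaMod k 𝔮)]
    (hδ : Module.finrank k (DeltaMod k 𝔮) ≤ d * δ)
    (hbase : δ + Nat.card X ≤ Nat.card {p : C × X // 𝔭 p.1 ≤ RingHom.ker (χ p.2)}) :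
    ∀ (s t : Sh) (y : Λ' →ₐ[k] k) (x : X), y.comp φ = χ x →
      𝔮 s ≤ RingHom.ker y → 𝔮 t ≤ RingHom.ker y → col s = col t → s = t := by
  classical
  let Y := {y : Λ' →ₐ[k] k // ∃ x, y.comp φ = χ x}
  let π : Y → X := fun y => y.2.choose
  have hπ : ∀ y : Y, y.1.comp φ = χ (π y) := fun y => y.2.choose_spec
  have hπ' : ∀ (y : Y) (x : X), y.1.comp φ = χ x → π y = x := fun y x h =>
    hχ ((hπ y).symm.trans h)
  let inc : Sh → Y → Prop := fun s y => 𝔮 s ≤ RingHom.ker y.1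
  let incB : C → X → Prop := fun c x => 𝔭 c ≤ RingHom.ker (χ x)
  have hcov : ∀ s y, inc s y → incB (col s) (π y) := by
    intro s y h a ha
    have h1 : y.1 (φ a) = 0 := RingHom.mem_ker.1 (h (hle s ha))
    rw [RingHom.mem_ker, ← hπ y]
    exact h1
  have h1 : ∀ s x, incB (col s) x → ∃! y, π y = x ∧ inc s y := by
    intro s x h
    obtain ⟨y₀, ⟨hy1, hy2⟩, huniq⟩ :=
      existsUnique_pt_of_sheet φ (𝔭 (col s)) (𝔮 s) (hle s) (hinj s) (hsurj s) (χ x) h
    refine ⟨⟨y₀, x, hy1⟩, ⟨hπ' _ x hy1, hy2⟩, ?_⟩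
    rintro y' ⟨hy'1, hy'2⟩
    apply Subtype.ext
    apply huniq
    exact ⟨by rw [hπ y', hy'1], hy'2⟩
  have h2 : ∀ y c, incB c (π y) → ∃ s, col s = c ∧ inc s y := fun y c h =>
    hgd y.1 (π y) (hπ y) c h
  -- finiteness of the set of points over `X`
  have hY : Finite Y := by
    choose c₀ hc₀ using hX
    choose s₀ hs₀ using fun y : Y => h2 y (c₀ (π y)) (hc₀ _)
    refine Finite.of_injective (fun y : Y => (s₀ y, π y)) ?_
    intro y y' hyy'
    have e1 : s₀ y = s₀ y' := congrArg Prod.fst hyy'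
    have e2 : π y = π y' := congrArg Prod.snd hyy'
    have hincB : incB (col (s₀ y)) (π y) := by rw [(hs₀ y).1]; exact hc₀ _
    exact (h1 (s₀ y) (π y) hincB).unique ⟨rfl, (hs₀ y).2⟩ ⟨e2.symm, by rw [e1]; exact (hs₀ y').2⟩
  have hcount : Nat.card {p : Sh × Y // inc p.1 p.2} ≤ d * δ + Nat.card Y := by
    have := card_inc_le_finrank_add_card (k := k) 𝔮 (fun y : Y => y.1) Subtype.val_injective
    exact this.trans (Nat.add_le_add_right hδ _)
  intro s t y x hy hs ht hst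
  exact uni_of_count col π inc incB d δ hd hcov h1 h2 hX hbase hcount s t ⟨y, x, hy⟩ hs ht hst

/-- **COUNT, two-component form** (the shape of the special fibre of `X₀(qM)`): the base has two
components `𝔭 c₁`, `𝔭 c₂` crossing transversally exactly at the points of `X`
(`hM5`: a function vanishing at all points of `X` lies in `𝔭 c₁ + 𝔭 c₂`), and
`δ(cover) ≤ d · δ(base)`. -/
theorem uni_of_delta_two (φ : Λ →ₐ[k] Λ') (𝔭 : C → Ideal Λ) (𝔮 : Sh → Ideal Λ') (col : Sh → C)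
    (d : ℕ) (hd : ∀ c, Nat.card {s // col s = c} = d)
    (hle : ∀ s, 𝔭 (col s) ≤ (𝔮 s).comap φ)
    (hinj : ∀ s a, φ a ∈ 𝔮 s → a ∈ 𝔭 (col s))
    (hsurj : ∀ s (b : Λ'), ∃ a : Λ, b - φ a ∈ 𝔮 s)
    (c₁ c₂ : C) (hc : c₁ ≠ c₂) (hC : ∀ c, c = c₁ ∨ c = c₂)
    (χ : X → (Λ →ₐ[k] k)) (hχ : Function.Injective χ)
    (hX : ∀ c x, 𝔭 c ≤ RingHom.ker (χ x))
    (hM5 : ∀ a : Λ, (∀ x, χ x a = 0) → a ∈ 𝔭 c₁ ⊔ 𝔭 c₂)
    (hgd : ∀ (y : Λ' →ₐ[k] k) (x : X), y.comp φ = χ x → ∀ c,
      ∃ s, col s = c ∧ 𝔮 s ≤ RingHom.ker y)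
    [Module.Finite k (DeltaMod k 𝔮)]
    (hδ : Module.finrank k (DeltaMod k 𝔮) ≤ d * Module.finrank k (DeltaMod k 𝔭)) :
    ∀ (s t : Sh) (y : Λ' →ₐ[k] k) (x : X), y.comp φ = χ x →
      𝔮 s ≤ RingHom.ker y → 𝔮 t ≤ RingHom.ker y → col s = col t → s = t := by
  classical
  obtain ⟨-, hle2⟩ := deltaMod_two_le 𝔭 c₁ c₂ hC χ hX hM5
  have hcardC : Nat.card C = 2 := by
    rw [Nat.card_eq_two_iff]
    refine ⟨c₁, c₂, hc, ?_⟩
    ext c
    simpa using hC c
  have hcardInc : Nat.card {p : C × X // 𝔭 p.1 ≤ RingHom.ker (χ p.2)} = 2 * Nat.card X := by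
    have e : {p : C × X // 𝔭 p.1 ≤ RingHom.ker (χ p.2)} ≃ C × X :=
      Equiv.subtypeUnivEquiv (fun p => hX p.1 p.2)
    rw [Nat.card_congr e, Nat.card_prod, hcardC]
  refine uni_of_delta φ 𝔭 𝔮 col d _ hd hle hinj hsurj χ hχ (fun x => ⟨c₁, hX c₁ x⟩)
    (fun y x hy c _ => hgd y x hy c) hδ ?_
  rw [hcardInc]
  omega

/-- Over an algebraically closed field, a maximal ideal of an integral extension lying over a
`k`-point is a `k`-point. -/
theorem exists_algHom_of_isMaximal [IsAlgClosed k] (φ : Λ →ₐ[k] Λ')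
    (hint : ∀ b : Λ', ∃ p : Polynomial Λ, p.Monic ∧ Polynomial.eval₂ (φ : Λ →+* Λ') b p = 0)
    (χ : Λ →ₐ[k] k) (𝔫 : Ideal Λ') [h𝔫 : 𝔫.IsMaximal] (h : RingHom.ker χ ≤ 𝔫.comap φ) :
    ∃ y : Λ' →ₐ[k] k, RingHom.ker y = 𝔫 ∧ y.comp φ = χ := by
  let _ : Field (Λ' ⧸ 𝔫) := Ideal.Quotient.field 𝔫
  have hcomm : ∀ a : Λ, Ideal.Quotient.mk 𝔫 (φ a) = algebraMap k (Λ' ⧸ 𝔫) (χ a) := by
    intro a
    have h1 : a - algebraMap k Λ (χ a) ∈ RingHom.ker χ := by
      rw [RingHom.mem_ker, map_sub, AlgHom.commutes]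
      simp
    have h2 : φ (a - algebraMap k Λ (χ a)) ∈ 𝔫 := h h1
    rw [map_sub, AlgHom.commutes, ← Ideal.Quotient.eq] at h2
    rw [h2]
    rfl
  have hI : Algebra.IsIntegral k (Λ' ⧸ 𝔫) := by
    refine ⟨fun z => ?_⟩
    obtain ⟨b, rfl⟩ := Ideal.Quotient.mk_surjective z
    obtain ⟨p, hp, hpb⟩ := hint b
    refine ⟨p.map (χ : Λ →+* k), hp.map _, ?_⟩
    rw [Polynomial.eval₂_map]
    have hrh : (algebraMap k (Λ' ⧸ 𝔫)).comp (χ : Λ →+* k) =
        (Ideal.Quotient.mk 𝔫).comp (φ : Λ →+* Λ') := by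
      ext a
      exact (hcomm a).symm
    rw [hrh, ← Polynomial.hom_eval₂, hpb, map_zero]
  have hbij : Function.Bijective (algebraMap k (Λ' ⧸ 𝔫)) :=
    IsAlgClosed.algebraMap_bijective_of_isIntegral
  let e : k ≃ₐ[k] (Λ' ⧸ 𝔫) := AlgEquiv.ofBijective (Algebra.ofId k (Λ' ⧸ 𝔫)) hbij
  have he : ∀ c : k, e c = algebraMap k (Λ' ⧸ 𝔫) c := fun _ => rfl
  let y : Λ' →ₐ[k] k := (e.symm : (Λ' ⧸ 𝔫) →ₐ[k] k).comp (Ideal.Quotient.mkₐ k 𝔫)
  have hy : ∀ b, y b = e.symm (Ideal.Quotient.mk 𝔫 b) := fun _ => rfl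
  refine ⟨y, ?_, ?_⟩
  · ext b
    rw [RingHom.mem_ker, hy, EmbeddingLike.map_eq_zero_iff, Ideal.Quotient.eq_zero_iff_mem]
  · ext a
    change y (φ a) = χ a
    rw [hy, hcomm, ← he, AlgEquiv.symm_apply_apply]

end Assembly

end Fermat.Agent.A2.H913
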