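import Fermat.Agent.A2.H913.Cover

/-!
# Cell A2, route G — COUNT in the form consumed by `H12.wallG` (helper913)

Mathlib-only.  `Fermat.Agent.A2.H12.wallG` takes COUNT as the hypotheses `h_uni_fin`, `h_uni_inf`:
for a maximal ideal `𝔫` of a chart of the cover, two sheets of the same colour contained in `𝔫` are
equal.  This file produces exactly that statement from the `δ`-count of `Count.lean`/`Cover.lean`.

* `exists_algHom_ker_eq` : over an algebraically closed field every maximal ideal of an algebra of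
  finite type is the kernel of a `k`-point (Zariski's lemma).
* `h_uni_of_pts` : from `k`-points of the special fibre to maximal ideals of the chart.
* `h_uni_of_delta` : COUNT for a chart `B'` of the cover with a reduction map `ψ' : B' → Λ'` onto the
  special fibre, in terms of the ideals `P s` of the sheets in the chart.
-/

set_option autoImplicit false

namespace Fermat.Agent.A2.H913

section Zariski

variable {k : Type*} [Field k] [IsAlgClosed k] {Λ' : Type*} [CommRing Λ'] [Algebra k Λ']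
  [Algebra.FiniteType k Λ']

/-- **Zariski's lemma**, in the form used here. -/
theorem exists_algHom_ker_eq (𝔫 : Ideal Λ') [h𝔫 : 𝔫.IsMaximal] :
    ∃ y : Λ' →ₐ[k] k, RingHom.ker y = 𝔫 := by
  let _ : Field (Λ' ⧸ 𝔫) := Ideal.Quotient.field 𝔫
  have hft : Algebra.FiniteType k (Λ' ⧸ 𝔫) :=
    Algebra.FiniteType.of_surjective (Ideal.Quotient.mkₐ k 𝔫) (Ideal.Quotient.mkₐ_surjective k 𝔫)
  have hfin : Module.Finite k (Λ' ⧸ 𝔫) := finite_of_finite_type_of_isJacobsonRing k (Λ' ⧸ 𝔫)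
  have hI : Algebra.IsIntegral k (Λ' ⧸ 𝔫) := Algebra.IsIntegral.of_finite k (Λ' ⧸ 𝔫)
  have hbij : Function.Bijective (algebraMap k (Λ' ⧸ 𝔫)) :=
    IsAlgClosed.algebraMap_bijective_of_isIntegral
  let e : k ≃ₐ[k] (Λ' ⧸ 𝔫) := AlgEquiv.ofBijective (Algebra.ofId k (Λ' ⧸ 𝔫)) hbij
  let y : Λ' →ₐ[k] k := (e.symm : (Λ' ⧸ 𝔫) →ₐ[k] k).comp (Ideal.Quotient.mkₐ k 𝔫)
  have hy : ∀ b, y b = e.symm (Ideal.Quotient.mk 𝔫 b) := fun _ => rfl
  refine ⟨y, ?_⟩
  ext b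
  rw [RingHom.mem_ker, hy, EmbeddingLike.map_eq_zero_iff, Ideal.Quotient.eq_zero_iff_mem]

variable {B' : Type*} [CommRing B'] {Sh C : Type*}

/-- From `k`-points of the special fibre to maximal ideals of the chart. -/
theorem h_uni_of_pts (ψ' : B' →+* Λ') (hψ' : Function.Surjective ψ')
    (P : Sh → Ideal B') (hP : ∀ s, RingHom.ker ψ' ≤ P s) (col : Sh → C)
    (huni : ∀ (s t : Sh) (y : Λ' →ₐ[k] k), (P s).map ψ' ≤ RingHom.ker y →
      (P t).map ψ' ≤ RingHom.ker y → col s = col t → s = t) :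
    ∀ 𝔫 : Ideal B', 𝔫.IsMaximal → ∀ s t, col s = col t → P s ≤ 𝔫 → P t ≤ 𝔫 → s = t := by
  intro 𝔫 h𝔫 s t hst hs ht
  have hker : RingHom.ker ψ' ≤ 𝔫 := (hP s).trans hs
  have hcomap : (𝔫.map ψ').comap ψ' = 𝔫 := by
    rw [Ideal.comap_map_of_surjective ψ' hψ', ← RingHom.ker_eq_comap_bot]
    exact sup_eq_left.2 hker
  have hmax : (𝔫.map ψ').IsMaximal := by
    rcases Ideal.map_eq_top_or_isMaximal_of_surjective ψ' hψ' h𝔫 with h | h
    · exfalso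
      rw [h, Ideal.comap_top] at hcomap
      exact h𝔫.ne_top hcomap.symm
    · exact h
  obtain ⟨y, hy⟩ := exists_algHom_ker_eq (k := k) (𝔫.map ψ')
  exact huni s t y (by rw [hy]; exact Ideal.map_mono hs) (by rw [hy]; exact Ideal.map_mono ht) hst

end Zariski

section Points

variable {k : Type*} [Field k] [IsAlgClosed k] {Λ : Type*} [CommRing Λ] [Algebra k Λ]

/-- A radical ideal with finite-dimensional quotient over an algebraically closed field is cut out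
by finitely many `k`-points. -/
theorem exists_pts_of_radical (J : Ideal Λ) (hJ : J.IsRadical) [Module.Finite k (Λ ⧸ J)] :
    ∃ χ : MaximalSpectrum (Λ ⧸ J) → (Λ →ₐ[k] k), Finite (MaximalSpectrum (Λ ⧸ J)) ∧
      Function.Injective χ ∧ (∀ x, J ≤ RingHom.ker (χ x)) ∧
      ∀ a : Λ, (∀ x, χ x a = 0) → a ∈ J := by
  have hart : IsArtinianRing (Λ ⧸ J) := IsArtinianRing.of_finite k (Λ ⧸ J)
  have hred : IsReduced (Λ ⧸ J) := (Ideal.isRadical_iff_quotient_reduced J).1 hJ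
  have key : ∀ x : MaximalSpectrum (Λ ⧸ J), ∃ y : (Λ ⧸ J) →ₐ[k] k, RingHom.ker y = x.asIdeal :=
    fun x => by
      have := x.isMaximal
      exact exists_algHom_ker_eq (k := k) x.asIdeal
  choose y hy using key
  refine ⟨fun x => (y x).comp (Ideal.Quotient.mkₐ k J), inferInstance, ?_, ?_, ?_⟩
  · intro x x' hxx'
    have h1 : y x = y x' := by
      ext z
      obtain ⟨a, rfl⟩ := Ideal.Quotient.mk_surjective z
      exact congrArg (fun f : Λ →ₐ[k] k => f a) hxx'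
    apply MaximalSpectrum.ext
    rw [← hy x, ← hy x', h1]
  · intro x a ha
    rw [RingHom.mem_ker]
    change y x (Ideal.Quotient.mk J a) = 0
    rw [Ideal.Quotient.eq_zero_iff_mem.2 ha, map_zero]
  · intro a ha
    have h1 : Ideal.Quotient.mk J a ∈ (⊥ : Ideal (Λ ⧸ J)).jacobson := by
      rw [Ideal.jacobson, Ideal.mem_sInf]
      rintro M ⟨-, hM⟩
      have h2 := ha ⟨M, hM⟩
      have h3 : Ideal.Quotient.mk J a ∈ RingHom.ker (y ⟨M, hM⟩) := RingHom.mem_ker.2 h2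
      rw [hy] at h3
      exact h3
    rw [IsArtinianRing.jacobson_eq_radical, Ideal.radical_bot_of_isReduced, Ideal.mem_bot] at h1
    exact Ideal.Quotient.eq_zero_iff_mem.1 h1

omit [IsAlgClosed k] in
/-- For two components, `Λ/(𝔭 c₁ + 𝔭 c₂)` is a quotient of the `δ`-module. -/
theorem finite_quot_sup_of_deltaMod {C : Type*} (𝔭 : C → Ideal Λ) (c₁ c₂ : C) (hc : c₁ ≠ c₂)
    [Module.Finite k (DeltaMod k 𝔭)] : Module.Finite k (Λ ⧸ (𝔭 c₁ ⊔ 𝔭 c₂)) := by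
  classical
  let Θ : (∀ c, Λ ⧸ 𝔭 c) →ₗ[k] Λ ⧸ (𝔭 c₁ ⊔ 𝔭 c₂) :=
    (Ideal.Quotient.factorₐ k (le_sup_left : 𝔭 c₁ ≤ 𝔭 c₁ ⊔ 𝔭 c₂)).toLinearMap ∘ₗ LinearMap.proj c₁ -
      (Ideal.Quotient.factorₐ k (le_sup_right : 𝔭 c₂ ≤ 𝔭 c₁ ⊔ 𝔭 c₂)).toLinearMap ∘ₗ
        LinearMap.proj c₂
  have hΘ : ∀ f, Θ f = Ideal.Quotient.factorₐ k (le_sup_left : 𝔭 c₁ ≤ 𝔭 c₁ ⊔ 𝔭 c₂) (f c₁) -
      Ideal.Quotient.factorₐ k (le_sup_right : 𝔭 c₂ ≤ 𝔭 c₁ ⊔ 𝔭 c₂) (f c₂) := fun _ => rfl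
  have hker : LinearMap.range (diagPi (k := k) 𝔭) ≤ LinearMap.ker Θ := by
    rintro _ ⟨a, rfl⟩
    rw [LinearMap.mem_ker, hΘ, diagPi_apply, diagPi_apply]
    exact sub_self _
  let Θ' : DeltaMod k 𝔭 →ₗ[k] Λ ⧸ (𝔭 c₁ ⊔ 𝔭 c₂) := Submodule.liftQ _ Θ hker
  have hsurj : Function.Surjective Θ' := by
    intro z
    obtain ⟨a, rfl⟩ := Ideal.Quotient.mk_surjective z
    refine ⟨Submodule.mkQ _ (Function.update 0 c₁ (Ideal.Quotient.mk (𝔭 c₁) a)), ?_⟩
    change Θ _ = _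
    rw [hΘ, Function.update_self, Function.update_of_ne hc.symm]
    simp
  exact Module.Finite.of_surjective Θ' hsurj

variable {Λ' : Type*} [CommRing Λ'] [Algebra k Λ'] [Algebra.FiniteType k Λ']
variable {C Sh : Type*} [Finite C] [Finite Sh]

/-- **COUNT, prime-ideal form** (no points in the statement).  Special fibres `Λ → Λ'` over an
algebraically closed field `k`; two components `𝔭 c₁`, `𝔭 c₂` of the base with `𝔭 c₁ ∩ 𝔭 c₂ = 0`
and `𝔭 c₁ + 𝔭 c₂` radical; `d` sheets per colour, each mapping isomorphically onto its component;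
going-down at the maximal ideals of `Λ'`; `δ(cover) ≤ d·δ(base)`.  Then a maximal ideal of `Λ'`
contains at most one sheet of each colour. -/
theorem uni_max_of_delta (φ : Λ →ₐ[k] Λ') (𝔭 : C → Ideal Λ) (𝔮 : Sh → Ideal Λ') (col : Sh → C)
    (d : ℕ) (hd : ∀ c, Nat.card {s // col s = c} = d)
    (hle : ∀ s, 𝔭 (col s) ≤ (𝔮 s).comap φ)
    (hinj : ∀ s a, φ a ∈ 𝔮 s → a ∈ 𝔭 (col s))
    (hsurj : ∀ s (b : Λ'), ∃ a : Λ, b - φ a ∈ 𝔮 s)
    (c₁ c₂ : C) (hc : c₁ ≠ c₂) (hC : ∀ c, c = c₁ ∨ c = c₂)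
    (hinf : 𝔭 c₁ ⊓ 𝔭 c₂ = ⊥) (hrad : (𝔭 c₁ ⊔ 𝔭 c₂).IsRadical)
    (hgd : ∀ 𝔫 : Ideal Λ', 𝔫.IsMaximal → ∀ c, 𝔭 c ≤ 𝔫.comap φ → ∃ s, col s = c ∧ 𝔮 s ≤ 𝔫)
    [Module.Finite k (DeltaMod k 𝔭)] [Module.Finite k (DeltaMod k 𝔮)]
    (hδ : Module.finrank k (DeltaMod k 𝔮) ≤ d * Module.finrank k (DeltaMod k 𝔭)) :
    ∀ 𝔫 : Ideal Λ', 𝔫.IsMaximal → ∀ s t, 𝔮 s ≤ 𝔫 → 𝔮 t ≤ 𝔫 → col s = col t → s = t := by
  have hfin : Module.Finite k (Λ ⧸ (𝔭 c₁ ⊔ 𝔭 c₂)) := finite_quot_sup_of_deltaMod 𝔭 c₁ c₂ hc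
  obtain ⟨χ, hXfin, hχ, hJ, hM5⟩ := exists_pts_of_radical (k := k) (𝔭 c₁ ⊔ 𝔭 c₂) hrad
  have hX : ∀ c x, 𝔭 c ≤ RingHom.ker (χ x) := by
    intro c x
    rcases hC c with rfl | rfl
    · exact le_sup_left.trans (hJ x)
    · exact le_sup_right.trans (hJ x)
  have hker : ∀ y : Λ' →ₐ[k] k, (RingHom.ker y).IsMaximal := fun y =>
    RingHom.ker_isMaximal_of_surjective _ (fun c => ⟨algebraMap k Λ' c, by simp⟩)
  have hgd' : ∀ (y : Λ' →ₐ[k] k) c, 𝔭 c ≤ RingHom.ker (y.comp φ) →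
      ∃ s, col s = c ∧ 𝔮 s ≤ RingHom.ker y := by
    intro y c h
    exact hgd (RingHom.ker y) (hker y) c h
  intro 𝔫 h𝔫 s t hs ht hst
  obtain ⟨y, hy⟩ := exists_algHom_ker_eq (k := k) 𝔫
  exact uni_of_delta_pt φ 𝔭 𝔮 col d hd hle hinj hsurj c₁ c₂ hc hC χ hχ hX hM5
    (exists_le_ker_of_inf_eq_bot 𝔭 c₁ c₂ hinf) hgd' hδ s t y (by rw [hy]; exact hs)
    (by rw [hy]; exact ht) hst

end Points

section GoingDown

variable {B B' : Type*} [CommRing B] [CommRing B'] [IsDomain B'] [Algebra B B']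
  [FaithfulSMul B B'] [Algebra.IsIntegral B B'] [IsIntegrallyClosed B]
variable {C Sh : Type*}

/-- **C-GD** (going-down bookkeeping).  `B ⊆ B'` integral, `B` integrally closed, and every prime
of `B'` over a component `p c` is a sheet of colour `c`.  Then a prime `𝔫` of `B'` whose contraction
contains the component `p c` contains a sheet of colour `c`. -/
theorem exists_sheet_le_of_goingDown (p : C → Ideal B) (hp : ∀ c, (p c).IsPrime)
    (P : Sh → Ideal B') (col : Sh → C)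
    (hsheets : ∀ (Q : Ideal B'), Q.IsPrime → ∀ c, Q.comap (algebraMap B B') = p c →
      ∃ s, col s = c ∧ P s = Q)
    (𝔫 : Ideal B') (h𝔫 : 𝔫.IsPrime) (c : C) (hc : p c ≤ 𝔫.comap (algebraMap B B')) :
    ∃ s, col s = c ∧ P s ≤ 𝔫 := by
  have := hp c
  have hq : (𝔫.comap (algebraMap B B')).IsPrime := Ideal.comap_isPrime _ _
  have hlo : 𝔫.LiesOver (𝔫.comap (algebraMap B B')) := ⟨rfl⟩
  obtain ⟨Q, hQ𝔫, hQp, hQlo⟩ :=
    Ideal.exists_ideal_le_liesOver_of_le (p := p c) (q := 𝔫.comap (algebraMap B B')) 𝔫 hc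
  obtain ⟨s, hs, hPs⟩ := hsheets Q hQp c (hQlo.over).symm
  exact ⟨s, hs, hPs ▸ hQ𝔫⟩

end GoingDown

section Chart

variable {k : Type*} [Field k] [IsAlgClosed k] {Λ Λ' : Type*} [CommRing Λ] [CommRing Λ']
  [Algebra k Λ] [Algebra k Λ'] [Algebra.FiniteType k Λ']
variable {B B' : Type*} [CommRing B] [CommRing B'] [Algebra B B']
variable {C Sh : Type*} [Finite C] [Finite Sh]

omit [IsAlgClosed k] [Algebra.FiniteType k Λ'] [Finite C] [Finite Sh] [Field k] [Algebra k Λ]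
  [Algebra k Λ'] [Algebra B B'] [CommRing B'] [CommRing Λ'] in
theorem comap_map_eq_self (ψ : B →+* Λ) (hψ : Function.Surjective ψ) (I : Ideal B)
    (hI : RingHom.ker ψ ≤ I) : (I.map ψ).comap ψ = I := by
  rw [Ideal.comap_map_of_surjective ψ hψ, ← RingHom.ker_eq_comap_bot]
  exact sup_eq_left.2 hI

omit [IsAlgClosed k] [Algebra.FiniteType k Λ'] [Finite C] [Finite Sh] in
theorem chart_hle (φ : Λ →ₐ[k] Λ') (ψ : B →+* Λ) (ψ' : B' →+* Λ')
    (hφ : ∀ b, φ (ψ b) = ψ' (algebraMap B B' b))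
    (p : C → Ideal B) (P : Sh → Ideal B') (col : Sh → C)
    (hover : ∀ s, (P s).comap (algebraMap B B') = p (col s)) :
    ∀ s, (p (col s)).map ψ ≤ ((P s).map ψ').comap φ := by
  intro s
  rw [Ideal.map_le_iff_le_comap]
  intro b hb
  rw [Ideal.mem_comap, Ideal.mem_comap, hφ]
  apply Ideal.mem_map_of_mem
  have : b ∈ (P s).comap (algebraMap B B') := by rw [hover]; exact hb
  exact this

omit [IsAlgClosed k] [Algebra.FiniteType k Λ'] [Finite C] [Finite Sh] in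
theorem chart_hinj (φ : Λ →ₐ[k] Λ') (ψ : B →+* Λ) (hψ : Function.Surjective ψ)
    (ψ' : B' →+* Λ') (hψ' : Function.Surjective ψ')
    (hφ : ∀ b, φ (ψ b) = ψ' (algebraMap B B' b))
    (p : C → Ideal B) (P : Sh → Ideal B') (col : Sh → C)
    (hPker : ∀ s, RingHom.ker ψ' ≤ P s)
    (hover : ∀ s, (P s).comap (algebraMap B B') = p (col s)) :
    ∀ s a, φ a ∈ (P s).map ψ' → a ∈ (p (col s)).map ψ := by
  intro s a ha
  obtain ⟨b, rfl⟩ := hψ a
  rw [hφ] at ha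
  have h1 : algebraMap B B' b ∈ ((P s).map ψ').comap ψ' := ha
  rw [comap_map_eq_self ψ' hψ' _ (hPker s)] at h1
  have h2 : b ∈ (P s).comap (algebraMap B B') := h1
  rw [hover] at h2
  exact Ideal.mem_map_of_mem _ h2

omit [IsAlgClosed k] [Algebra.FiniteType k Λ'] [Finite C] [Finite Sh] in
theorem chart_hsurj (φ : Λ →ₐ[k] Λ') (ψ : B →+* Λ)
    (ψ' : B' →+* Λ') (hψ' : Function.Surjective ψ')
    (hφ : ∀ b, φ (ψ b) = ψ' (algebraMap B B' b))
    (P : Sh → Ideal B')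
    (hsurjB : ∀ s (b' : B'), ∃ b : B, b' - algebraMap B B' b ∈ P s) :
    ∀ s (b : Λ'), ∃ a : Λ, b - φ a ∈ (P s).map ψ' := by
  intro s b
  obtain ⟨β, rfl⟩ := hψ' b
  obtain ⟨b₀, hb₀⟩ := hsurjB s β
  refine ⟨ψ b₀, ?_⟩
  rw [hφ, ← map_sub]
  exact Ideal.mem_map_of_mem _ hb₀

omit [IsAlgClosed k] [Algebra.FiniteType k Λ'] [Finite C] [Finite Sh] [Field k] [Algebra k Λ]
  [Algebra k Λ'] [Algebra B B'] [CommRing B'] [CommRing Λ'] in
theorem chart_hinf (ψ : B →+* Λ) (hψ : Function.Surjective ψ) (p : C → Ideal B)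
    (hpker : ∀ c, RingHom.ker ψ ≤ p c) (c₁ c₂ : C)
    (hinfB : p c₁ ⊓ p c₂ ≤ RingHom.ker ψ) : (p c₁).map ψ ⊓ (p c₂).map ψ = ⊥ := by
  rw [eq_bot_iff]
  rintro a ⟨h1, h2⟩
  obtain ⟨b, rfl⟩ := hψ a
  have h1' : b ∈ ((p c₁).map ψ).comap ψ := h1
  have h2' : b ∈ ((p c₂).map ψ).comap ψ := h2
  rw [comap_map_eq_self ψ hψ _ (hpker _)] at h1' h2'
  exact RingHom.mem_ker.1 (hinfB ⟨h1', h2'⟩)

omit [IsAlgClosed k] [Algebra.FiniteType k Λ'] [Finite C] [Finite Sh] [Field k] [Algebra k Λ]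
  [Algebra k Λ'] [Algebra B B'] [CommRing B] [CommRing Λ] in
theorem chart_hred' (ψ' : B' →+* Λ') (hψ' : Function.Surjective ψ') (P : Sh → Ideal B')
    (hPker : ∀ s, RingHom.ker ψ' ≤ P s)
    (hredB' : ⨅ s, P s ≤ RingHom.ker ψ') : ⨅ s, (P s).map ψ' = ⊥ := by
  rw [eq_bot_iff]
  intro a ha
  rw [Ideal.mem_iInf] at ha
  obtain ⟨β, rfl⟩ := hψ' a
  have h1 : β ∈ ⨅ s, P s := by
    rw [Ideal.mem_iInf]
    intro s
    have h2 : β ∈ ((P s).map ψ').comap ψ' := ha s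
    rw [comap_map_eq_self ψ' hψ' _ (hPker s)] at h2
    exact h2
  exact RingHom.mem_ker.1 (hredB' h1)

/-- **COUNT (obligation C6 of `origin/helper12:coord/A2-wallG.md`), chart form.**
`B ⊆ B'` charts of base and cover, `ψ : B → Λ`, `ψ' : B' → Λ'` the reductions onto the special
fibres (`k`-algebras, `k` algebraically closed), `p c` the two components in `B`, `P s` the sheets
in `B'`.  Hypotheses in the chart: sheets lie over components, residue degree one (`hsurjB`),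
reduced base fibre (`hinfB`), transversal crossings (`hradB`), going-down in the form
`exists_sheet_le_of_goingDown` (`hgdB`); numerical input `δ(cover) ≤ d·δ(base)` (`hδ`, produced by
`Fermat.Agent.A2.H733.deltaMod_cover_eq` from the discriminants).
Conclusion: the hypothesis `h_uni_fin` / `h_uni_inf` of `Fermat.Agent.A2.H12.wallG`. -/
theorem h_uni_of_chart (φ : Λ →ₐ[k] Λ') (ψ : B →+* Λ) (hψ : Function.Surjective ψ)
    (ψ' : B' →+* Λ') (hψ' : Function.Surjective ψ')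
    (hφ : ∀ b, φ (ψ b) = ψ' (algebraMap B B' b))
    (p : C → Ideal B) (P : Sh → Ideal B') (col : Sh → C)
    (hpker : ∀ c, RingHom.ker ψ ≤ p c) (hPker : ∀ s, RingHom.ker ψ' ≤ P s)
    (hover : ∀ s, (P s).comap (algebraMap B B') = p (col s))
    (hsurjB : ∀ s (b' : B'), ∃ b : B, b' - algebraMap B B' b ∈ P s)
    (d : ℕ) (hd : ∀ c, Nat.card {s // col s = c} = d)
    (c₁ c₂ : C) (hc : c₁ ≠ c₂) (hC : ∀ c, c = c₁ ∨ c = c₂)
    (hinfB : p c₁ ⊓ p c₂ ≤ RingHom.ker ψ) (hradB : (p c₁ ⊔ p c₂).IsRadical)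
    (hgdB : ∀ 𝔫 : Ideal B', 𝔫.IsMaximal → ∀ c, p c ≤ 𝔫.comap (algebraMap B B') →
      ∃ s, col s = c ∧ P s ≤ 𝔫)
    [Module.Finite k (DeltaMod k fun c => (p c).map ψ)]
    [Module.Finite k (DeltaMod k fun s => (P s).map ψ')]
    (hδ : Module.finrank k (DeltaMod k fun s => (P s).map ψ') ≤
      d * Module.finrank k (DeltaMod k fun c => (p c).map ψ)) :
    ∀ 𝔫 : Ideal B', 𝔫.IsMaximal → ∀ s t, col s = col t → P s ≤ 𝔫 → P t ≤ 𝔫 → s = t := by
  have hle := chart_hle φ ψ ψ' hφ p P col hover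
  have hinj := chart_hinj φ ψ hψ ψ' hψ' hφ p P col hPker hover
  have hsurj := chart_hsurj φ ψ ψ' hψ' hφ P hsurjB
  have hinf := chart_hinf ψ hψ p hpker c₁ c₂ hinfB
  have hrad : ((p c₁).map ψ ⊔ (p c₂).map ψ).IsRadical := by
    rw [← Ideal.map_sup]
    intro a ha
    obtain ⟨n, hn⟩ := ha
    obtain ⟨b, rfl⟩ := hψ a
    rw [← map_pow] at hn
    have h1 : b ^ n ∈ ((p c₁ ⊔ p c₂).map ψ).comap ψ := hn
    rw [comap_map_eq_self ψ hψ _ ((hpker c₁).trans le_sup_left)] at h1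
    exact Ideal.mem_map_of_mem _ (hradB ⟨n, h1⟩)
  have hgd : ∀ 𝔫' : Ideal Λ', 𝔫'.IsMaximal → ∀ c, (p c).map ψ ≤ 𝔫'.comap φ →
      ∃ s, col s = c ∧ (P s).map ψ' ≤ 𝔫' := by
    intro 𝔫' h𝔫' c hc'
    have hmax : (𝔫'.comap ψ').IsMaximal := Ideal.comap_isMaximal_of_surjective ψ' hψ'
    obtain ⟨s, hs, hPs⟩ := hgdB (𝔫'.comap ψ') hmax c (by
      intro b hb
      rw [Ideal.mem_comap, Ideal.mem_comap, ← hφ]
      exact hc' (Ideal.mem_map_of_mem _ hb))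
    exact ⟨s, hs, Ideal.map_le_iff_le_comap.2 hPs⟩
  have key := uni_max_of_delta (k := k) φ (fun c => (p c).map ψ) (fun s => (P s).map ψ') col d hd
    hle hinj hsurj c₁ c₂ hc hC hinf hrad hgd hδ
  intro 𝔫 h𝔫 s t hst hs ht
  have hker : RingHom.ker ψ' ≤ 𝔫 := (hPker s).trans hs
  have hmax : (𝔫.map ψ').IsMaximal := by
    rcases Ideal.map_eq_top_or_isMaximal_of_surjective ψ' hψ' h𝔫 with h | h
    · exfalso
      have h1 := comap_map_eq_self ψ' hψ' 𝔫 hker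
      rw [h, Ideal.comap_top] at h1
      exact h𝔫.ne_top h1.symm
    · exact h
  exact key (𝔫.map ψ') hmax s t (Ideal.map_mono hs) (Ideal.map_mono ht) hst

end Chart

end Fermat.Agent.A2.H913
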