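import Fermat.Agent.A2.H913.Adapter
import Fermat.Agent.A2.H733.DeltaCover

/-!
# Cell A2, route G — obligation C6 (COUNT) from the discriminant relation (helper913)

Assembly of `H913.h_uni_of_chart` (consumer side of the `δ`-count) with
`H733.deltaMod_cover_eq` (producer of `δ(cover) = d·δ(base)` from discriminants).

`h_uni_of_chart_discr` : charts `B ⊆ B'` of base and cover with reductions `ψ : B → Λ`,
`ψ' : B' → Λ'` onto special fibres which are free of finite rank over `k[X]`
(`k` algebraically closed).  If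

* the base fibre is reduced with two components meeting transversally,
* the cover fibre is reduced, its components are the sheets `P s`, `d` over each component, each of
  residue degree one over its component,
* going-down holds (`exists_sheet_le_of_goingDown`),
* the components are generically separable over the `X`-line (`hsep`) and
  `disc(Λ'/k[X]) ~ disc(Λ/k[X])^d` (`hdisc`),

then a maximal ideal of `B'` contains at most one sheet of each colour, which is the hypothesis
`h_uni_fin` / `h_uni_inf` of `Fermat.Agent.A2.H12.wallG`.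
-/

set_option autoImplicit false

namespace Fermat.Agent.A2.H913

open Polynomial

section C6

variable {k : Type*} [Field k] [IsAlgClosed k] {Λ Λ' : Type*} [CommRing Λ] [CommRing Λ']
  [Algebra k Λ] [Algebra k Λ'] [Algebra k[X] Λ] [IsScalarTower k k[X] Λ] [Algebra k[X] Λ']
  [IsScalarTower k k[X] Λ']
variable {B B' : Type*} [CommRing B] [CommRing B'] [Algebra B B']
variable {C Sh : Type*} [Fintype C] [Fintype Sh]
variable {ι ι' : Type*} [Fintype ι] [Fintype ι'] [DecidableEq ι] [DecidableEq ι']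
variable {κ : C → Type*} [∀ c, Fintype (κ c)] [∀ c, DecidableEq (κ c)]

omit [IsAlgClosed k] [DecidableEq ι] [∀ c, DecidableEq (κ c)] in
/-- The `δ`-module of the base is finite-dimensional as soon as the ranks match. -/
theorem finite_deltaMod_of_bases (𝔭 : C → Ideal Λ) (hred : ⨅ c, 𝔭 c = ⊥)
    (b : Module.Basis ι k[X] Λ) (bc : ∀ c, Module.Basis (κ c) k[X] (Λ ⧸ 𝔭 c))
    (hrank : Fintype.card ι = ∑ c, Fintype.card (κ c)) :
    Module.Finite k (DeltaMod k 𝔭) := by
  classical
  have hcardt : Fintype.card (Σ c, κ c) = Fintype.card ι := by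
    rw [Fintype.card_sigma, hrank]
  let e : (Σ c, κ c) ≃ ι := Fintype.equivOfCardEq hcardt
  let bt : Module.Basis ι k[X] (∀ c, Λ ⧸ 𝔭 c) := (Pi.basis bc).reindex e
  have hΦ := H733.diagAlg_injective k 𝔭 hred
  have hfin : Module.Finite k
      ((∀ c, Λ ⧸ 𝔭 c) ⧸ LinearMap.range (H733.diagAlg k 𝔭).toLinearMap) :=
    H733.finite_quotient_of_bases bt _
      (b.map (LinearEquiv.ofInjective (H733.diagAlg k 𝔭).toLinearMap hΦ))
  exact Module.Finite.equiv (H733.deltaModEquiv k 𝔭).symm

/-- **Obligation C6 (COUNT) from the discriminant relation.** -/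
theorem h_uni_of_chart_discr (φ : Λ →ₐ[k[X]] Λ') (ψ : B →+* Λ) (hψ : Function.Surjective ψ)
    (ψ' : B' →+* Λ') (hψ' : Function.Surjective ψ')
    (hφ : ∀ b, φ (ψ b) = ψ' (algebraMap B B' b))
    (p : C → Ideal B) (P : Sh → Ideal B') (col : Sh → C)
    (hpker : ∀ c, RingHom.ker ψ ≤ p c) (hPker : ∀ s, RingHom.ker ψ' ≤ P s)
    (hover : ∀ s, (P s).comap (algebraMap B B') = p (col s))
    (hsurjB : ∀ s (b' : B'), ∃ b : B, b' - algebraMap B B' b ∈ P s)
    (d : ℕ) (hd : ∀ c, Nat.card {s // col s = c} = d)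
    (c₁ c₂ : C) (hc : c₁ ≠ c₂) (hC : ∀ c, c = c₁ ∨ c = c₂)
    (hinfB : p c₁ ⊓ p c₂ ≤ RingHom.ker ψ) (hradB : (p c₁ ⊔ p c₂).IsRadical)
    (hredB' : ⨅ s, P s ≤ RingHom.ker ψ')
    (hgdB : ∀ 𝔫 : Ideal B', 𝔫.IsMaximal → ∀ c, p c ≤ 𝔫.comap (algebraMap B B') →
      ∃ s, col s = c ∧ P s ≤ 𝔫)
    (b : Module.Basis ι k[X] Λ) (b' : Module.Basis ι' k[X] Λ')
    (bc : ∀ c, Module.Basis (κ c) k[X] (Λ ⧸ (p c).map ψ))
    (hrank : Fintype.card ι = ∑ c, Fintype.card (κ c))
    (hrank' : Fintype.card ι' = d * Fintype.card ι)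
    (hsep : ∀ c, Algebra.discr k[X] (bc c) ≠ 0)
    (hdisc : Associated (Algebra.discr k[X] b') (Algebra.discr k[X] b ^ d)) :
    ∀ 𝔫 : Ideal B', 𝔫.IsMaximal → ∀ s t, col s = col t → P s ≤ 𝔫 → P t ≤ 𝔫 → s = t := by
  classical
  have hfinΛ' : Module.Finite k[X] Λ' := Module.Finite.of_basis b'
  have hft : Algebra.FiniteType k Λ' := Algebra.FiniteType.trans (S := k[X]) inferInstance
    inferInstance
  have hle := chart_hle (φ.restrictScalars k) ψ ψ' hφ p P col hover
  have hinj := chart_hinj (φ.restrictScalars k) ψ hψ ψ' hψ' hφ p P col hPker hover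
  have hsurj := chart_hsurj (φ.restrictScalars k) ψ ψ' hψ' hφ P hsurjB
  have hinf := chart_hinf ψ hψ p hpker c₁ c₂ hinfB
  have hred : ⨅ c, (p c).map ψ = ⊥ := by
    rw [eq_bot_iff, ← hinf]
    exact le_inf (iInf_le _ c₁) (iInf_le _ c₂)
  have hred' := chart_hred' ψ' hψ' P hPker hredB'
  have hfin := finite_deltaMod_of_bases (fun c => (p c).map ψ) hred b bc hrank
  obtain ⟨hfin', hδ⟩ := H733.deltaMod_cover_eq φ (fun c => (p c).map ψ) (fun s => (P s).map ψ')
    col d hd hle hinj hsurj hred hred' b b' bc hrank hrank' hsep hdisc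
  exact h_uni_of_chart (φ.restrictScalars k) ψ hψ ψ' hψ' hφ p P col hpker hPker hover hsurjB d hd
    c₁ c₂ hc hC hinfB hradB hgdB hδ.le

end C6

end Fermat.Agent.A2.H913
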