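import Fermat.Agent.A2.H913.Count

/-!
# Cell A2, route G — the covering property and the δ-count at all points (helper913)

Mathlib-only, continues `Fermat/Agent/A2/H913/Count.lean` (piece A3 = (c3) of
`origin/helper13:coord/A2.md`).

* `mem_range_diagPi_of_eq` : **equality case of the local bound**.  If
  `dim_k (∏ Λ/𝔮 u)/Λ + #points ≤ #{(u, y) : y ∈ 𝔮 u}` (so equality holds), then a tuple of functions
  on the sheets which agree at the given points comes from `Λ`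
  ("`Λ` is the fibre product of its sheets along the nodes").
* `card_pts_le`, `card_pts_eq` : the number of points of the cover over the points of the base.
* `cover_of_delta` : the covering property for the cover, from `δ(cover) ≤ d·δ(base)`.
* `uni_of_delta_pt` : at most one sheet of each colour through **every** `k`-point of the cover
  (crossing or not), for a two-component base with transversal crossings.
-/

set_option autoImplicit false

namespace Fermat.Agent.A2.H913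

section Equality

variable {k : Type*} [Field k] {Λ : Type*} [CommRing Λ] [Algebra k Λ]
variable {ι κ : Type*} [Finite ι] [Finite κ]

/-- **Equality case of `card_inc_le_finrank_add_card`: the covering property.** -/
theorem mem_range_diagPi_of_eq (𝔮 : ι → Ideal Λ) (χ : κ → (Λ →ₐ[k] k))
    (hχ : Function.Injective χ) [Module.Finite k (DeltaMod k 𝔮)]
    (hon : ∀ y, ∃ u, 𝔮 u ≤ RingHom.ker (χ y))
    (heq : Module.finrank k (DeltaMod k 𝔮) + Nat.card κ ≤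
      Nat.card {p : ι × κ // 𝔮 p.1 ≤ RingHom.ker (χ p.2)})
    (f : ∀ u, Λ ⧸ 𝔮 u)
    (hf : ∀ y u u' (h : 𝔮 u ≤ RingHom.ker (χ y)) (h' : 𝔮 u' ≤ RingHom.ker (χ y)),
      ptLift (𝔮 u) (χ y) h (f u) = ptLift (𝔮 u') (χ y) h' (f u')) :
    f ∈ LinearMap.range (diagPi (k := k) 𝔮) := by
  classical
  have : Fintype {p : ι × κ // 𝔮 p.1 ≤ RingHom.ker (χ p.2)} := Fintype.ofFinite _
  have : Fintype κ := Fintype.ofFinite _
  set Inc := {p : ι × κ // 𝔮 p.1 ≤ RingHom.ker (χ p.2)} with hInc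
  let r : (κ → k) →ₗ[k] (Inc → k) := LinearMap.funLeft k k (fun p : Inc => p.1.2)
  have hr : Function.Injective r := by
    apply LinearMap.funLeft_injective_of_surjective
    intro y
    obtain ⟨u, hu⟩ := hon y
    exact ⟨⟨(u, y), hu⟩, rfl⟩
  let D : Submodule k (Inc → k) := LinearMap.range r
  have hle : LinearMap.range (diagPi (k := k) 𝔮) ≤ D.comap (evInc 𝔮 χ) := by
    rintro _ ⟨a, rfl⟩
    refine ⟨fun y => χ y a, ?_⟩
    funext p
    rw [evInc_diagPi]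
    rfl
  let g : DeltaMod k 𝔮 →ₗ[k] (Inc → k) ⧸ D := Submodule.mapQ _ D (evInc 𝔮 χ) hle
  have hg : Function.Surjective g := by
    intro z
    obtain ⟨b, rfl⟩ := Submodule.mkQ_surjective D z
    obtain ⟨f, rfl⟩ := evInc_surjective 𝔮 χ hχ b
    exact ⟨Submodule.mkQ _ f, rfl⟩
  have h1 : Module.finrank k ((Inc → k) ⧸ D) ≤ Module.finrank k (DeltaMod k 𝔮) :=
    LinearMap.finrank_le_finrank_of_surjective hg
  have h2 : Module.finrank k ((Inc → k) ⧸ D) + Module.finrank k D = Module.finrank k (Inc → k) :=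
    Submodule.finrank_quotient_add_finrank D
  have h3 : Module.finrank k D = Module.finrank k (κ → k) := LinearMap.finrank_range_of_inj hr
  rw [Module.finrank_pi] at h2 h3
  rw [Nat.card_eq_fintype_card, Nat.card_eq_fintype_card] at heq
  have h4 : Module.finrank k (DeltaMod k 𝔮) = Module.finrank k ((Inc → k) ⧸ D) := by omega
  have hginj : Function.Injective g :=
    (LinearMap.injective_iff_surjective_of_finrank_eq_finrank h4).2 hg
  -- the tuple `f` is sent into `D`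
  choose u₀ hu₀ using hon
  have hfD : evInc 𝔮 χ f ∈ D := by
    refine ⟨fun y => ptLift (𝔮 (u₀ y)) (χ y) (hu₀ y) (f (u₀ y)), ?_⟩
    funext p
    obtain ⟨⟨u, y⟩, h⟩ := p
    exact hf y (u₀ y) u (hu₀ y) h
  have hgf : g (Submodule.mkQ _ f) = 0 := by
    change Submodule.mkQ D (evInc 𝔮 χ f) = 0
    rw [Submodule.mkQ_apply, Submodule.Quotient.mk_eq_zero]
    exact hfD
  have h0 : Submodule.mkQ (LinearMap.range (diagPi (k := k) 𝔮)) f = 0 :=
    hginj (hgf.trans (map_zero g).symm)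
  rw [Submodule.mkQ_apply, Submodule.Quotient.mk_eq_zero] at h0
  exact h0

end Equality

section Combinatorics

variable {S Y X C : Type*} [Finite S] [Finite X]

/-- The number of points of the cover is at most `d · #X`. -/
theorem card_pts_le [Finite Y] (col : S → C) (π : Y → X) (inc : S → Y → Prop)
    (incB : C → X → Prop)
    (d : ℕ) (hd : ∀ c, Nat.card {s // col s = c} = d)
    (h1 : ∀ s x, incB (col s) x → ∃! y, π y = x ∧ inc s y)
    (h2 : ∀ y c, incB c (π y) → ∃ s, col s = c ∧ inc s y)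
    (hX : ∀ x, ∃ c, incB c x) :
    Nat.card Y ≤ d * Nat.card X := by
  classical
  choose c hc using hX
  let T := {p : S × X // col p.1 = c p.2}
  have hT : Nat.card T = d * Nat.card X := by
    let e : T ≃ Σ x : X, {s // col s = c x} :=
      { toFun := fun p => ⟨p.1.2, ⟨p.1.1, p.2⟩⟩
        invFun := fun r => ⟨(r.2.1, r.1), r.2.2⟩
        left_inv := by rintro ⟨⟨s, x⟩, h⟩; rfl
        right_inv := by rintro ⟨x, ⟨s, h⟩⟩; rfl }
    have : Fintype X := Fintype.ofFinite _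
    rw [Nat.card_congr e, Nat.card_sigma]
    simp only [hd, Finset.sum_const, Finset.card_univ, smul_eq_mul, Nat.card_eq_fintype_card]
    ring
  have hTinc : ∀ p : T, incB (col p.1.1) p.1.2 := fun p => by rw [p.2]; exact hc _
  let φ : T → Y := fun p => (h1 p.1.1 p.1.2 (hTinc p)).choose
  have hφu : ∀ (p : T) (y' : Y), π y' = p.1.2 → inc p.1.1 y' → y' = φ p := fun p y' h h' =>
    (h1 p.1.1 p.1.2 (hTinc p)).choose_spec.2 y' ⟨h, h'⟩
  have hsurj : Function.Surjective φ := by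
    intro y'
    obtain ⟨s', hs', hinc'⟩ := h2 y' (c (π y')) (hc _)
    exact ⟨⟨(s', π y'), hs'⟩, (hφu ⟨(s', π y'), hs'⟩ y' rfl hinc').symm⟩
  rw [← hT]
  exact Nat.card_le_card_of_surjective φ hsurj

/-- **Equality in the count**: `δ' + #Y ≤ #inc'` as soon as `δ' ≤ d·δ` and `δ + #X ≤ #inc`. -/
theorem count_eq [Finite Y] [Finite C] (col : S → C) (π : Y → X) (inc : S → Y → Prop)
    (incB : C → X → Prop)
    (d δ δ' : ℕ) (hd : ∀ c, Nat.card {s // col s = c} = d)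
    (hcov : ∀ s y, inc s y → incB (col s) (π y))
    (h1 : ∀ s x, incB (col s) x → ∃! y, π y = x ∧ inc s y)
    (h2 : ∀ y c, incB c (π y) → ∃ s, col s = c ∧ inc s y)
    (hX : ∀ x, ∃ c, incB c x)
    (hbase : δ + Nat.card X ≤ Nat.card {p : C × X // incB p.1 p.2})
    (hδ : δ' ≤ d * δ) :
    δ' + Nat.card Y ≤ Nat.card {p : S × Y // inc p.1 p.2} := by
  have hA := card_inc_eq_mul col π inc incB d hd hcov h1
  have hB := card_pts_le col π inc incB d hd h1 h2 hX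
  have h3 : d * (δ + Nat.card X) ≤ d * Nat.card {p : C × X // incB p.1 p.2} :=
    Nat.mul_le_mul_left d hbase
  rw [Nat.mul_add] at h3
  omega

end Combinatorics

section Ring

variable {k : Type*} [Field k] {Λ Λ' : Type*} [CommRing Λ] [CommRing Λ'] [Algebra k Λ]
  [Algebra k Λ']
variable {C Sh X : Type*}

/-- The `k`-points of the cover lying over the given points of the base. -/
abbrev PtsOver (φ : Λ →ₐ[k] Λ') (χ : X → (Λ →ₐ[k] k)) : Type _ :=
  {y : Λ' →ₐ[k] k // ∃ x, y.comp φ = χ x}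

/-- The point of the base below a point of the cover. -/
noncomputable def ptsProj (φ : Λ →ₐ[k] Λ') (χ : X → (Λ →ₐ[k] k)) (y : PtsOver φ χ) : X :=
  y.2.choose

theorem ptsProj_spec (φ : Λ →ₐ[k] Λ') (χ : X → (Λ →ₐ[k] k)) (y : PtsOver φ χ) :
    y.1.comp φ = χ (ptsProj φ χ y) :=
  y.2.choose_spec

theorem ptsProj_eq (φ : Λ →ₐ[k] Λ') (χ : X → (Λ →ₐ[k] k)) (hχ : Function.Injective χ)
    (y : PtsOver φ χ) (x : X) (h : y.1.comp φ = χ x) : ptsProj φ χ y = x :=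
  hχ ((ptsProj_spec φ χ y).symm.trans h)

theorem pts_hcov (φ : Λ →ₐ[k] Λ') (𝔭 : C → Ideal Λ) (𝔮 : Sh → Ideal Λ') (col : Sh → C)
    (hle : ∀ s, 𝔭 (col s) ≤ (𝔮 s).comap φ) (χ : X → (Λ →ₐ[k] k)) (s : Sh) (y : PtsOver φ χ)
    (h : 𝔮 s ≤ RingHom.ker y.1) : 𝔭 (col s) ≤ RingHom.ker (χ (ptsProj φ χ y)) := by
  intro a ha
  have h1 : y.1 (φ a) = 0 := RingHom.mem_ker.1 (h (hle s ha))
  rw [RingHom.mem_ker, ← ptsProj_spec φ χ y]
  exact h1

theorem pts_h1 (φ : Λ →ₐ[k] Λ') (𝔭 : C → Ideal Λ) (𝔮 : Sh → Ideal Λ') (col : Sh → C)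
    (hle : ∀ s, 𝔭 (col s) ≤ (𝔮 s).comap φ)
    (hinj : ∀ s a, φ a ∈ 𝔮 s → a ∈ 𝔭 (col s))
    (hsurj : ∀ s (b : Λ'), ∃ a : Λ, b - φ a ∈ 𝔮 s)
    (χ : X → (Λ →ₐ[k] k)) (hχ : Function.Injective χ) (s : Sh) (x : X)
    (h : 𝔭 (col s) ≤ RingHom.ker (χ x)) :
    ∃! y : PtsOver φ χ, ptsProj φ χ y = x ∧ 𝔮 s ≤ RingHom.ker y.1 := by
  obtain ⟨y₀, ⟨hy1, hy2⟩, huniq⟩ :=
    existsUnique_pt_of_sheet φ (𝔭 (col s)) (𝔮 s) (hle s) (hinj s) (hsurj s) (χ x) h
  refine ⟨⟨y₀, x, hy1⟩, ⟨ptsProj_eq φ χ hχ _ x hy1, hy2⟩, ?_⟩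
  rintro y' ⟨hy'1, hy'2⟩
  apply Subtype.ext
  apply huniq
  exact ⟨by rw [ptsProj_spec φ χ y', hy'1], hy'2⟩

theorem pts_finite [Finite Sh] [Finite X] (φ : Λ →ₐ[k] Λ') (𝔭 : C → Ideal Λ)
    (𝔮 : Sh → Ideal Λ') (col : Sh → C)
    (hle : ∀ s, 𝔭 (col s) ≤ (𝔮 s).comap φ)
    (hinj : ∀ s a, φ a ∈ 𝔮 s → a ∈ 𝔭 (col s))
    (hsurj : ∀ s (b : Λ'), ∃ a : Λ, b - φ a ∈ 𝔮 s)
    (χ : X → (Λ →ₐ[k] k)) (hχ : Function.Injective χ)
    (hon : ∀ y : PtsOver φ χ, ∃ s, 𝔮 s ≤ RingHom.ker y.1) :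
    Finite (PtsOver φ χ) := by
  choose s₀ hs₀ using hon
  refine Finite.of_injective (fun y : PtsOver φ χ => (s₀ y, ptsProj φ χ y)) ?_
  intro y y' hyy'
  have e1 : s₀ y = s₀ y' := congrArg Prod.fst hyy'
  have e2 : ptsProj φ χ y = ptsProj φ χ y' := congrArg Prod.snd hyy'
  have hincB := pts_hcov φ 𝔭 𝔮 col hle χ (s₀ y) y (hs₀ y)
  exact (pts_h1 φ 𝔭 𝔮 col hle hinj hsurj χ hχ (s₀ y) _ hincB).unique ⟨rfl, hs₀ y⟩
    ⟨e2.symm, by rw [e1]; exact hs₀ y'⟩

variable [Finite C] [Finite Sh] [Finite X]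

/-- **The covering property** (helper13 memo (c3), last sentence): under the hypotheses of
`uni_of_delta`, a tuple of functions on the sheets of the cover whose values agree at every point
over `X` (on the sheets through that point) is the image of an element of `Λ'`. -/
theorem cover_of_delta (φ : Λ →ₐ[k] Λ') (𝔭 : C → Ideal Λ) (𝔮 : Sh → Ideal Λ') (col : Sh → C)
    (d δ : ℕ) (hd : ∀ c, Nat.card {s // col s = c} = d)
    (hle : ∀ s, 𝔭 (col s) ≤ (𝔮 s).comap φ)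
    (hinj : ∀ s a, φ a ∈ 𝔮 s → a ∈ 𝔭 (col s))
    (hsurj : ∀ s (b : Λ'), ∃ a : Λ, b - φ a ∈ 𝔮 s)
    (χ : X → (Λ →ₐ[k] k)) (hχ : Function.Injective χ)
    (hX : ∀ x, ∃ c, 𝔭 c ≤ RingHom.ker (χ x))
    (hgd : ∀ (y : Λ' →ₐ[k] k) (x : X), y.comp φ = χ x → ∀ c, 𝔭 c ≤ RingHom.ker (χ x) →
      ∃ s, col s = c ∧ 𝔮 s ≤ RingHom.ker y)
    [Module.Finite k (DeltaMod k 𝔮)]
    (hδ : Module.finrank k (DeltaMod k 𝔮) ≤ d * δ)
    (hbase : δ + Nat.card X ≤ Nat.card {p : C × X // 𝔭 p.1 ≤ RingHom.ker (χ p.2)})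
    (f : ∀ s, Λ' ⧸ 𝔮 s)
    (hf : ∀ (y : Λ' →ₐ[k] k) (x : X), y.comp φ = χ x →
      ∀ s t (hs : 𝔮 s ≤ RingHom.ker y) (ht : 𝔮 t ≤ RingHom.ker y),
        ptLift (𝔮 s) y hs (f s) = ptLift (𝔮 t) y ht (f t)) :
    ∃ b : Λ', ∀ s, Ideal.Quotient.mk (𝔮 s) b = f s := by
  classical
  have h2 : ∀ (y : PtsOver φ χ) c, 𝔭 c ≤ RingHom.ker (χ (ptsProj φ χ y)) →
      ∃ s, col s = c ∧ 𝔮 s ≤ RingHom.ker y.1 := fun y c h =>
    hgd y.1 _ (ptsProj_spec φ χ y) c h
  have hon : ∀ y : PtsOver φ χ, ∃ s, 𝔮 s ≤ RingHom.ker y.1 := by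
    intro y
    obtain ⟨c, hc⟩ := hX (ptsProj φ χ y)
    obtain ⟨s, -, hs⟩ := h2 y c hc
    exact ⟨s, hs⟩
  have hY : Finite (PtsOver φ χ) := pts_finite φ 𝔭 𝔮 col hle hinj hsurj χ hχ hon
  have heq := count_eq col (ptsProj φ χ) (fun s (y : PtsOver φ χ) => 𝔮 s ≤ RingHom.ker y.1)
    (fun c x => 𝔭 c ≤ RingHom.ker (χ x)) d δ (Module.finrank k (DeltaMod k 𝔮)) hd
    (pts_hcov φ 𝔭 𝔮 col hle χ) (pts_h1 φ 𝔭 𝔮 col hle hinj hsurj χ hχ) h2 hX hbase hδ
  have hmem := mem_range_diagPi_of_eq (k := k) 𝔮 (fun y : PtsOver φ χ => y.1)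
    Subtype.val_injective hon heq f
    (fun y s t hs ht => hf y.1 _ (ptsProj_spec φ χ y) s t hs ht)
  obtain ⟨b, hb⟩ := hmem
  exact ⟨b, fun s => congrFun hb s⟩

/-- **COUNT at all points.**  Two-component base with transversal crossings exactly at the points
of `X` (`hM5`), every `k`-point of the base on some component, `d` sheets per colour each mapping
isomorphically to its component, going-down, and `δ(cover) ≤ d·δ(base)`.  Then through **every**
`k`-point of the cover there passes at most one sheet of each colour: the sheets of a given colour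
are pairwise disjoint. -/
theorem uni_of_delta_pt (φ : Λ →ₐ[k] Λ') (𝔭 : C → Ideal Λ) (𝔮 : Sh → Ideal Λ') (col : Sh → C)
    (d : ℕ) (hd : ∀ c, Nat.card {s // col s = c} = d)
    (hle : ∀ s, 𝔭 (col s) ≤ (𝔮 s).comap φ)
    (hinj : ∀ s a, φ a ∈ 𝔮 s → a ∈ 𝔭 (col s))
    (hsurj : ∀ s (b : Λ'), ∃ a : Λ, b - φ a ∈ 𝔮 s)
    (c₁ c₂ : C) (hc : c₁ ≠ c₂) (hC : ∀ c, c = c₁ ∨ c = c₂)
    (χ : X → (Λ →ₐ[k] k)) (hχ : Function.Injective χ)
    (hX : ∀ c x, 𝔭 c ≤ RingHom.ker (χ x))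
    (hM5 : ∀ a : Λ, (∀ x, χ x a = 0) → a ∈ 𝔭 c₁ ⊔ 𝔭 c₂)
    (hpt : ∀ x₀ : Λ →ₐ[k] k, ∃ c, 𝔭 c ≤ RingHom.ker x₀)
    (hgd : ∀ (y : Λ' →ₐ[k] k) c, 𝔭 c ≤ RingHom.ker (y.comp φ) →
      ∃ s, col s = c ∧ 𝔮 s ≤ RingHom.ker y)
    [Module.Finite k (DeltaMod k 𝔮)]
    (hδ : Module.finrank k (DeltaMod k 𝔮) ≤ d * Module.finrank k (DeltaMod k 𝔭)) :
    ∀ (s t : Sh) (y : Λ' →ₐ[k] k),
      𝔮 s ≤ RingHom.ker y → 𝔮 t ≤ RingHom.ker y → col s = col t → s = t := by
  classical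
  intro s t y hs ht hst
  by_cases hx : ∃ x, y.comp φ = χ x
  · obtain ⟨x, hx⟩ := hx
    exact uni_of_delta_two φ 𝔭 𝔮 col d hd hle hinj hsurj c₁ c₂ hc hC χ hχ hX hM5
      (fun y' x' hy' c => hgd y' c (by rw [hy']; exact hX c x')) hδ s t y x hx hs ht hst
  · -- add the point below `y` to the crossing points
    obtain ⟨-, hle2⟩ := deltaMod_two_le 𝔭 c₁ c₂ hC χ hX hM5
    let χ' : Option X → (Λ →ₐ[k] k) := fun o => o.elim (y.comp φ) χ
    have hχ' : Function.Injective χ' := by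
      rintro (_ | a) (_ | b) hab
      · rfl
      · exact absurd ⟨b, hab⟩ hx
      · exact absurd ⟨a, hab.symm⟩ hx
      · exact congrArg some (hχ hab)
    obtain ⟨c₀, hc₀⟩ := hpt (y.comp φ)
    have hcardC : Nat.card C = 2 := by
      rw [Nat.card_eq_two_iff]
      refine ⟨c₁, c₂, hc, ?_⟩
      ext c
      simpa using hC c
    have hbase : Module.finrank k (DeltaMod k 𝔭) + Nat.card (Option X) ≤
        Nat.card {p : C × Option X // 𝔭 p.1 ≤ RingHom.ker (χ' p.2)} := by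
      let ι₀ : (C × X) ⊕ Unit → {p : C × Option X // 𝔭 p.1 ≤ RingHom.ker (χ' p.2)} := fun z =>
        match z with
        | Sum.inl p => ⟨(p.1, some p.2), hX p.1 p.2⟩
        | Sum.inr _ => ⟨(c₀, none), hc₀⟩
      have hι₀ : Function.Injective ι₀ := by
        rintro (⟨a, b⟩ | _) (⟨a', b'⟩ | _) h
        · have h1 := congrArg Subtype.val h
          simp only [ι₀, Prod.mk.injEq, Option.some.injEq] at h1
          rw [h1.1, h1.2]
        · have h1 := congrArg Subtype.val h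
          simp [ι₀] at h1
        · have h1 := congrArg Subtype.val h
          simp [ι₀] at h1
        · rfl
      have h3 := Nat.card_le_card_of_injective ι₀ hι₀
      have h5 : Nat.card ((C × X) ⊕ Unit) = 2 * Nat.card X + 1 := by
        rw [Nat.card_sum, Nat.card_prod, hcardC]
        simp
      rw [h5] at h3
      have h4 : Nat.card (Option X) = Nat.card X + 1 := by
        have : Fintype X := Fintype.ofFinite _
        rw [Nat.card_eq_fintype_card, Nat.card_eq_fintype_card, Fintype.card_option]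
      omega
    refine uni_of_delta φ 𝔭 𝔮 col d _ hd hle hinj hsurj χ' hχ' ?_ ?_ hδ hbase s t y none rfl
      hs ht hst
    · rintro (_ | a)
      · exact ⟨c₀, hc₀⟩
      · exact ⟨c₁, hX c₁ a⟩
    · intro y' x' hy' c hcx
      exact hgd y' c (by rw [hy']; exact hcx)

omit [Finite C] in
/-- Every `k`-point lies on one of two components whose intersection is zero. -/
theorem exists_le_ker_of_inf_eq_bot (𝔭 : C → Ideal Λ) (c₁ c₂ : C) (h : 𝔭 c₁ ⊓ 𝔭 c₂ = ⊥)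
    (x₀ : Λ →ₐ[k] k) : ∃ c, 𝔭 c ≤ RingHom.ker x₀ := by
  by_contra hne
  rw [not_exists] at hne
  obtain ⟨a, ha, hax⟩ := Set.not_subset.1 (hne c₁)
  obtain ⟨b, hb, hbx⟩ := Set.not_subset.1 (hne c₂)
  have hab : a * b ∈ 𝔭 c₁ ⊓ 𝔭 c₂ := ⟨Ideal.mul_mem_right _ _ ha, Ideal.mul_mem_left _ _ hb⟩
  rw [h, Ideal.mem_bot] at hab
  have h1 : x₀ a * x₀ b = 0 := by rw [← map_mul, hab, map_zero]
  rcases mul_eq_zero.1 h1 with h2 | h2
  · exact hax (RingHom.mem_ker.2 h2)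
  · exact hbx (RingHom.mem_ker.2 h2)

end Ring

end Fermat.Agent.A2.H913
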